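/-
The integral Frey curve `FreyPackage.freyCurveInt` is a semistable integral model of
`FreyPackage.freyCurve` with nonzero discriminant.  Consequently S04 (modularity of the Frey
curve) follows formally from S60 (modularity of semistable curves).
-/
import Fermat.Prelude.Def_FLTPrelim_FreyPackage
import Fermat.Prelude.Def_FLTPrelim_Modularity

set_option autoImplicit false

open WeierstrassCurve

namespace Fermat.Agent.Frey

/-- `b = 2 * k`. -/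
theorem two_dvd_b (P : FreyPackage) : (2 : ℤ) ∣ P.b :=
  (ZMod.intCast_zmod_eq_zero_iff_dvd P.b 2).1 P.hb2

/-- `4 ∣ b ^ p`. -/
theorem four_dvd_b_pow (P : FreyPackage) : (4 : ℤ) ∣ P.b ^ P.p := by
  have h2 : (2 : ℤ) ^ 2 ∣ P.b ^ 2 := pow_dvd_pow_of_dvd (two_dvd_b P) 2
  have h3 : P.b ^ 2 ∣ P.b ^ P.p := pow_dvd_pow _ (by have := P.hp5; omega)
  exact (by norm_num : (4 : ℤ) = 2 ^ 2) ▸ h2.trans h3

/-- `16 ∣ b ^ p`. -/
theorem sixteen_dvd_b_pow (P : FreyPackage) : (16 : ℤ) ∣ P.b ^ P.p := by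
  have h2 : (2 : ℤ) ^ 4 ∣ P.b ^ 4 := pow_dvd_pow_of_dvd (two_dvd_b P) 4
  have h3 : P.b ^ 4 ∣ P.b ^ P.p := pow_dvd_pow _ (by have := P.hp5; omega)
  exact (by norm_num : (16 : ℤ) = 2 ^ 4) ▸ h2.trans h3

/-- `4 ∣ 1 + a ^ p` because `a ≡ -1 mod 4` and `p` is odd. -/
theorem four_dvd_one_add_a_pow (P : FreyPackage) : (4 : ℤ) ∣ 1 + P.a ^ P.p := by
  have h : ((1 + P.a ^ P.p : ℤ) : ZMod 4) = 0 := by
    push_cast
    rw [P.ha4]
    have h3 : (3 : ZMod 4) = -1 := by decide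
    rw [h3, P.hp_odd.neg_one_pow]
    ring
  exact (ZMod.intCast_zmod_eq_zero_iff_dvd _ 4).1 h

theorem four_dvd_a₂_num (P : FreyPackage) : (4 : ℤ) ∣ P.b ^ P.p - 1 - P.a ^ P.p := by
  have h1 := four_dvd_b_pow P
  have h2 := four_dvd_one_add_a_pow P
  have : P.b ^ P.p - 1 - P.a ^ P.p = P.b ^ P.p - (1 + P.a ^ P.p) := by ring
  rw [this]
  exact dvd_sub h1 h2

theorem sixteen_dvd_a₄_num (P : FreyPackage) : (16 : ℤ) ∣ -(P.a ^ P.p) * P.b ^ P.p :=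
  Dvd.dvd.mul_left (sixteen_dvd_b_pow P) _

theorem four_mul_a₂ (P : FreyPackage) :
    4 * P.freyCurveInt.a₂ = P.b ^ P.p - 1 - P.a ^ P.p :=
  Int.mul_ediv_cancel' (four_dvd_a₂_num P)

theorem sixteen_mul_a₄ (P : FreyPackage) :
    16 * P.freyCurveInt.a₄ = -(P.a ^ P.p) * P.b ^ P.p :=
  Int.mul_ediv_cancel' (sixteen_dvd_a₄_num P)

/-- The integral Frey curve base-changes to the rational Frey curve. -/
theorem freyCurveInt_map (P : FreyPackage) :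
    P.freyCurveInt.map (Int.castRingHom ℚ) = P.freyCurve := by
  have h2 : ((P.freyCurveInt.a₂ : ℤ) : ℚ) = (P.b ^ P.p - 1 - P.a ^ P.p) / 4 := by
    have := congrArg (fun z : ℤ => (z : ℚ)) (four_mul_a₂ P)
    simp only [Int.cast_mul, Int.cast_ofNat, Int.cast_sub, Int.cast_pow, Int.cast_one] at this
    rw [eq_div_iff (by norm_num : (4 : ℚ) ≠ 0)]
    linarith
  have h4 : ((P.freyCurveInt.a₄ : ℤ) : ℚ) = -(P.a ^ P.p) * (P.b ^ P.p) / 16 := by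
    have := congrArg (fun z : ℤ => (z : ℚ)) (sixteen_mul_a₄ P)
    simp only [Int.cast_mul, Int.cast_ofNat, Int.cast_neg, Int.cast_pow] at this
    rw [eq_div_iff (by norm_num : (16 : ℚ) ≠ 0)]
    linarith
  ext
  · simp [FreyPackage.freyCurveInt, FreyPackage.freyCurve]
  · simpa [FreyPackage.freyCurve] using h2
  · simp [FreyPackage.freyCurveInt, FreyPackage.freyCurve]
  · simpa [FreyPackage.freyCurve] using h4
  · simp [FreyPackage.freyCurveInt, FreyPackage.freyCurve]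

/-- `c₄ = a^{2p} + a^p b^p + b^{2p}`. -/
theorem freyCurveInt_c₄ (P : FreyPackage) :
    P.freyCurveInt.c₄ = (P.a ^ P.p) ^ 2 + P.a ^ P.p * P.b ^ P.p + (P.b ^ P.p) ^ 2 := by
  have h2 := four_mul_a₂ P
  have h4 := sixteen_mul_a₄ P
  have hc : P.freyCurveInt.c₄ = (1 + 4 * P.freyCurveInt.a₂) ^ 2 - 48 * P.freyCurveInt.a₄ := by
    have h1 : P.freyCurveInt.a₁ = 1 := rfl
    have h3 : P.freyCurveInt.a₃ = 0 := rfl
    simp only [WeierstrassCurve.c₄, WeierstrassCurve.b₂, WeierstrassCurve.b₄, h1, h3]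
    ring
  rw [hc]
  linear_combination (1 + 4 * P.freyCurveInt.a₂ + P.b ^ P.p - P.a ^ P.p) * h2 - 3 * h4

/-- `2^8 Δ = (a b c)^{2p}`. -/
theorem freyCurveInt_Δ (P : FreyPackage) :
    256 * P.freyCurveInt.Δ = (P.a ^ P.p) ^ 2 * (P.b ^ P.p) ^ 2 * (P.c ^ P.p) ^ 2 := by
  have h2 := four_mul_a₂ P
  have h4 := sixteen_mul_a₄ P
  have hΔ : P.freyCurveInt.Δ =
      (1 + 4 * P.freyCurveInt.a₂) ^ 2 * P.freyCurveInt.a₄ ^ 2 - 64 * P.freyCurveInt.a₄ ^ 3 := by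
    have h1 : P.freyCurveInt.a₁ = 1 := rfl
    have h3 : P.freyCurveInt.a₃ = 0 := rfl
    have h6 : P.freyCurveInt.a₆ = 0 := rfl
    simp only [WeierstrassCurve.Δ, WeierstrassCurve.b₂, WeierstrassCurve.b₄, WeierstrassCurve.b₆,
      WeierstrassCurve.b₈, h1, h3, h6]
    ring
  have e1 : 1 + 4 * P.freyCurveInt.a₂ = P.b ^ P.p - P.a ^ P.p := by linarith
  have e : 256 * ((1 + 4 * P.freyCurveInt.a₂) ^ 2 * P.freyCurveInt.a₄ ^ 2 -
      64 * P.freyCurveInt.a₄ ^ 3) =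
      (16 * P.freyCurveInt.a₄) ^ 2 * (1 + 4 * P.freyCurveInt.a₂) ^ 2 -
        4 * (16 * P.freyCurveInt.a₄) ^ 3 := by ring
  rw [hΔ, e, e1, h4, ← P.hFLT]
  ring

theorem freyCurveInt_Δ_ne_zero (P : FreyPackage) : P.freyCurveInt.Δ ≠ 0 := by
  intro h
  have h1 := freyCurveInt_Δ P
  rw [h, mul_zero] at h1
  have hne : (P.a ^ P.p) ^ 2 * (P.b ^ P.p) ^ 2 * (P.c ^ P.p) ^ 2 ≠ 0 :=
    mul_ne_zero (mul_ne_zero (pow_ne_zero _ (pow_ne_zero _ P.ha0))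
      (pow_ne_zero _ (pow_ne_zero _ P.hb0))) (pow_ne_zero _ (pow_ne_zero _ P.hc0))
  exact hne h1.symm

/-- A prime cannot divide two integers with `gcd = 1`. -/
theorem false_of_prime_dvd_of_gcd_eq_one {q x y : ℤ} (hq : Prime q) (hx : q ∣ x) (hy : q ∣ y)
    (h : gcd x y = 1) : False :=
  hq.not_dvd_one (h ▸ dvd_gcd hx hy)

/-- The integral Frey curve is semistable: no prime divides both `Δ` and `c₄`. -/
theorem freyCurveInt_isSemistableModel (P : FreyPackage) : P.freyCurveInt.IsSemistableModel := by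
  intro q hq hqΔ hqc
  have hq' : Prime (q : ℤ) := Nat.prime_iff_prime_int.mp hq
  rw [freyCurveInt_c₄] at hqc
  have hΔ : (q : ℤ) ∣ (P.a ^ P.p) ^ 2 * (P.b ^ P.p) ^ 2 * (P.c ^ P.p) ^ 2 := by
    rw [← freyCurveInt_Δ]; exact Dvd.dvd.mul_left hqΔ _
  have hA : (q : ℤ) ∣ P.a ^ P.p → (q : ℤ) ∣ P.a := fun h => hq'.dvd_of_dvd_pow h
  have hB : (q : ℤ) ∣ P.b ^ P.p → (q : ℤ) ∣ P.b := fun h => hq'.dvd_of_dvd_pow h
  have hC : (q : ℤ) ∣ P.c ^ P.p → (q : ℤ) ∣ P.c := fun h => hq'.dvd_of_dvd_pow h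
  rcases hq'.dvd_or_dvd hΔ with h | h
  · rcases hq'.dvd_or_dvd h with h | h
    · -- q ∣ a ^ p, hence q ∣ (b ^ p) ^ 2
      have ha : (q : ℤ) ∣ P.a ^ P.p := hq'.dvd_of_dvd_pow h
      have hb2 : (q : ℤ) ∣ (P.b ^ P.p) ^ 2 := by
        have : (P.b ^ P.p) ^ 2 = ((P.a ^ P.p) ^ 2 + P.a ^ P.p * P.b ^ P.p + (P.b ^ P.p) ^ 2) -
            P.a ^ P.p * (P.a ^ P.p + P.b ^ P.p) := by ring
        rw [this]
        exact dvd_sub hqc (Dvd.dvd.mul_right ha _)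
      exact false_of_prime_dvd_of_gcd_eq_one hq' (hA ha) (hB (hq'.dvd_of_dvd_pow hb2)) P.hgcdab
    · -- q ∣ b ^ p, hence q ∣ (a ^ p) ^ 2
      have hb : (q : ℤ) ∣ P.b ^ P.p := hq'.dvd_of_dvd_pow h
      have ha2 : (q : ℤ) ∣ (P.a ^ P.p) ^ 2 := by
        have : (P.a ^ P.p) ^ 2 = ((P.a ^ P.p) ^ 2 + P.a ^ P.p * P.b ^ P.p + (P.b ^ P.p) ^ 2) -
            P.b ^ P.p * (P.a ^ P.p + P.b ^ P.p) := by ring
        rw [this]
        exact dvd_sub hqc (Dvd.dvd.mul_right hb _)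
      exact false_of_prime_dvd_of_gcd_eq_one hq' (hA (hq'.dvd_of_dvd_pow ha2)) (hB hb) P.hgcdab
  · -- q ∣ c ^ p = a ^ p + b ^ p, hence q ∣ a ^ p * b ^ p
    have hc : (q : ℤ) ∣ P.c ^ P.p := hq'.dvd_of_dvd_pow h
    have hab : (q : ℤ) ∣ P.a ^ P.p * P.b ^ P.p := by
      have : P.a ^ P.p * P.b ^ P.p = (P.a ^ P.p + P.b ^ P.p) * (P.a ^ P.p + P.b ^ P.p) -
          ((P.a ^ P.p) ^ 2 + P.a ^ P.p * P.b ^ P.p + (P.b ^ P.p) ^ 2) := by ring
      rw [this, P.hFLT]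
      exact dvd_sub (Dvd.dvd.mul_right hc _) hqc
    rcases hq'.dvd_or_dvd hab with h | h
    · exact false_of_prime_dvd_of_gcd_eq_one hq' (hA h) (hC hc) P.hgcdac
    · exact false_of_prime_dvd_of_gcd_eq_one hq' (hB h) (hC hc) P.hgcdbc

/-- **S04 from S60**: if every semistable integral Weierstrass curve with nonzero discriminant
is modular, then the Frey curve is modular. -/
theorem freyCurve_isModular_of
    (h60 : ∀ W : WeierstrassCurve ℤ, W.Δ ≠ 0 → W.IsSemistableModel →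
      (W.map (Int.castRingHom ℚ)).IsModular)
    (P : FreyPackage) : P.freyCurve.IsModular := by
  have h := h60 P.freyCurveInt (freyCurveInt_Δ_ne_zero P) (freyCurveInt_isSemistableModel P)
  rwa [freyCurveInt_map] at h

end Fermat.Agent.Frey
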